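import Fermat.Agent.LT.A2.H569.BorelPsi

/-!
# Row LT, tower A2, leaf A2.03.1.2 `WX467.BorelC` -- part 3 (helper569): the leaf

OFF-MAIN.  `borelC569 : WX467.BorelC` (registry row 1136), VERBATIM against
`LT/A2/H467/WeilExSpec.lean` (helper467).  No hypothesis is left: the output of tower T1 is not
used.
-/

set_option autoImplicit false

open IsDedekindDomain NumberField AutomorphicForm MeasureTheory
open scoped MatrixGroups Topology

noncomputable section

namespace Fermat.Agent.LT.A2.H569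

open Fermat.Agent.LT.H130 Fermat.Agent.LT.H556 Fermat.Agent.LT.A2 Fermat.Agent.LT.A2.WX467
open Fermat.Agent.LT.T1.H793

variable {K : Type} [Field K] [NumberField K]

/-! ## Generalities -/

theorem hasFiniteMulSupport_of_eventually569 {ι M : Type*} [One M] {f : ι → M}
    (h : ∀ᶠ i in Filter.cofinite, f i = 1) : Function.HasFiniteMulSupport f := by
  rw [Filter.eventually_cofinite] at h
  exact h

theorem map_fin_two569 {R S : Type*} (f : R → S) (a b c d : R) :
    (!![a, b; c, d] : Matrix (Fin 2) (Fin 2) R).map f = !![f a, f b; f c, f d] := by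
  ext i j
  fin_cases i <;> fin_cases j <;> rfl

theorem sqrt_finset_prod569 {ι : Type*} (s : Finset ι) (N : ι → ℝ) (hN : ∀ i, 0 ≤ N i) :
    Real.sqrt (∏ i ∈ s, N i) = ∏ i ∈ s, Real.sqrt (N i) := by
  classical
  induction s using Finset.induction_on with
  | empty => simp
  | insert a s ha ih =>
    rw [Finset.prod_insert ha, Finset.prod_insert ha, Real.sqrt_mul (hN a), ih]

theorem sqrt_finprod569 {ι : Type*} (N : ι → ℝ) (hN : ∀ i, 0 ≤ N i)
    (hfin : Function.HasFiniteMulSupport N) :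
    Real.sqrt (∏ᶠ i, N i) = ∏ᶠ i, Real.sqrt (N i) := by
  have hfin' : (Function.mulSupport N).Finite := hfin
  have hsub0 : Function.mulSupport N ⊆ (hfin'.toFinset : Set ι) := by
    rw [Set.Finite.coe_toFinset]
  have hsub : Function.mulSupport (fun i => Real.sqrt (N i)) ⊆ (hfin'.toFinset : Set ι) := by
    intro i hi
    rw [Function.mem_mulSupport] at hi
    rw [Set.Finite.coe_toFinset, Function.mem_mulSupport]
    intro h1
    apply hi
    rw [h1, Real.sqrt_one]
  rw [finprod_eq_prod_of_mulSupport_subset N hsub0,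
    finprod_eq_prod_of_mulSupport_subset _ hsub, sqrt_finset_prod569 _ _ hN]

/-- The product family, unfolded. -/
theorem F_eq569 (L : WData K) (g m : A0.G K) (ξ : A0.Adl K × A0.Adl K) :
    L.toKData.F g m ξ
      = (∏ u : InfinitePlace K, L.Finf u (infMat u g) (infMat u m) (infVec u ξ)) *
        ∏ᶠ v : HeightOneSpectrum (𝓞 K),
          L.Ffin v (A0.finComp v g) (A0.finComp v m) (finVec v ξ) := rfl

/-! ## Ideles at almost all places -/

theorem eventually_unit569 (a : (A0.Adl K)ˣ) :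
    ∀ᶠ v : HeightOneSpectrum (𝓞 K) in Filter.cofinite, Valued.v ((a : A0.Adl K).2 v) = 1 :=
  Fermat.Agent.LT.T1.H638.eventually_valued_eq_one638 K a

theorem hasFiniteMulSupport_norm569 (a : (A0.Adl K)ˣ) :
    Function.HasFiniteMulSupport fun v : HeightOneSpectrum (𝓞 K) => ‖(a : A0.Adl K).2 v‖ :=
  Fermat.Agent.LT.T1.H638.hasFiniteMulSupport_norm638 K a

theorem etafin_eq_one569 (L : WData K) (hL : L.IsGood) (v : HeightOneSpectrum (𝓞 K))
    (hv : ¬ v.asIdeal ∣ L.π.level) (x : v.adicCompletion K) (hx : Valued.v x = 1) :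
    L.ηfin v x = 1 :=
  (hL.good v hv).eta_unram x hx

theorem hasFiniteMulSupport_etafin569 (L : WData K) (hL : L.IsGood) (a : (A0.Adl K)ˣ) :
    Function.HasFiniteMulSupport fun v : HeightOneSpectrum (𝓞 K) =>
      L.ηfin v ((a : A0.Adl K).2 v) := by
  apply hasFiniteMulSupport_of_eventually569
  filter_upwards [eventually_good569 L.π, eventually_unit569 a] with v hv ha
  exact etafin_eq_one569 L hL v hv _ ha

theorem etainf_eq_one569 (L : WData K) (hL : L.IsGood) (a : (A0.Adl K)ˣ) (u : InfinitePlace K) :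
    L.ηinf u ((a : A0.Adl K).1 u) = 1 :=
  (hL.cpx u).eta_one _ (inf_ne_zero569 a u)

/-- `η` is the product of the local characters at the finite places. -/
theorem eta_eq569 (L : WData K) (hL : L.IsGood) (a : (A0.Adl K)ˣ) :
    L.η a = ∏ᶠ v : HeightOneSpectrum (𝓞 K), L.ηfin v ((a : A0.Adl K).2 v) := by
  rw [hL.eta_prod a, Finset.prod_eq_one fun u _ => etainf_eq_one569 L hL a u, one_mul]

/-! ## `unip` -/

theorem unip569 (L : WData K) (hL : L.IsGood) (nU : A0.Adl K → A0.G K) (hn : IsUpperUnip nU)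
    (x : A0.Adl K) (g m : A0.G K) (ξ : A0.Adl K × A0.Adl K) (h : Adm L.t L.n g m) :
    L.toKData.F (nU x * g) m ξ = L.ψ (x * qf L.t L.n ξ) * L.toKData.F g m ξ := by
  have hinf : ∀ u : InfinitePlace K,
      L.Finf u (infMat u (nU x * g)) (infMat u m) (infVec u ξ)
        = L.ψinf u ((x * qf L.t L.n ξ).1 u)
          * L.Finf u (infMat u g) (infMat u m) (infVec u ξ) := by
    intro u
    have hnu : infMat u (nU x) = !![1, x.1 u; 0, 1] := by
      rw [infMat_eq569, hn x, map_fin_two569]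
      rfl
    rw [infMat_mul569, hnu]
    exact (hL.cpx u).ax.unip (x.1 u) _ _ _ (admL_inf569 h u)
  have hfin : ∀ v : HeightOneSpectrum (𝓞 K),
      L.Ffin v (A0.finComp v (nU x * g)) (A0.finComp v m) (finVec v ξ)
        = L.ψfin v ((x * qf L.t L.n ξ).2 v)
          * L.Ffin v (A0.finComp v g) (A0.finComp v m) (finVec v ξ) := by
    intro v
    have hnv : A0.finComp v (nU x) = !![1, x.2 v; 0, 1] := by
      rw [finComp_eq569, hn x, map_fin_two569]
      rfl
    rw [finComp_mul569, hnv]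
    exact (hL.fin v).ax.unip (x.2 v) _ _ _ (admL_fin569 h v)
  rw [F_eq569, F_eq569, psi_prod569 L hL]
  simp only [hinf, hfin]
  rw [Finset.prod_mul_distrib,
    finprod_mul_distrib (hasFiniteMulSupport_psifin569 L hL _)
      (hasFiniteMulSupport_Ffin569 L hL h ξ)]
  ring

/-! ## `torA` and `tor1` -/

theorem det_diagOne569 {d : A0.G K} {a : (A0.Adl K)ˣ} (hd : WL.IsDiagOneA d a) :
    Matrix.GeneralLinearGroup.det d = a := by
  apply Units.ext
  rw [Matrix.GeneralLinearGroup.val_det_apply, hd, Matrix.det_fin_two_of]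
  ring

theorem adm_tor569 {t n : K} {μ' d g m : A0.G K} (hμ : InTorus t n μ')
    (hd : WL.IsDiagOneA d (Matrix.GeneralLinearGroup.det μ')) (h : Adm t n g m) :
    Adm t n (d * g) (μ' * m) := by
  refine ⟨inTorus_mul569 hμ h.1, ?_⟩
  rw [map_mul, map_mul, det_diagOne569 hd, h.2]

theorem torA569 (L : WData K) (hL : L.IsGood) (μ' d : A0.G K) (hμ : InTorus L.t L.n μ')
    (hd : WL.IsDiagOneA d (Matrix.GeneralLinearGroup.det μ'))
    (g m : A0.G K) (ξ : A0.Adl K × A0.Adl K) (h : Adm L.t L.n g m) :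
    ((Real.sqrt (Fermat.Agent.LT.T1.adNorm K
        ((Matrix.GeneralLinearGroup.det μ' : (A0.Adl K)ˣ) : A0.Adl K)) : ℝ) : ℂ)
        * L.toKData.F (d * g) (μ' * m) ξ
      = L.toKData.F g m (actV μ'⁻¹ ξ) := by
  set a : (A0.Adl K)ˣ := Matrix.GeneralLinearGroup.det μ' with ha
  have hinf : ∀ u : InfinitePlace K,
      L.Finf u (infMat u g) (infMat u m) (infVec u (actV μ'⁻¹ ξ))
        = ((Real.sqrt (‖(a : A0.Adl K).1 u‖ ^ u.mult) : ℝ) : ℂ)
          * L.Finf u (infMat u (d * g)) (infMat u (μ' * m)) (infVec u ξ) := by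
    intro u
    have hdu : infMat u d = !![1, 0; 0, (infMat u μ').det] := by
      rw [infMat_eq569, hd, map_fin_two569, infMat_det569]
      rfl
    rw [infMat_mul569, infMat_mul569, hdu]
    have h1 := (hL.cpx u).ax.tor (infMat u μ') (inTorL_inf569 hμ u)
      (infMat_det_ne_zero569 u μ') (infMat u g) (infMat u m) (infVec u ξ) (admL_inf569 h u)
    rw [← infMat_inv569] at h1
    rw [infMat_det569] at h1 ⊢
    exact h1.symm
  have hfin : ∀ v : HeightOneSpectrum (𝓞 K),
      L.Ffin v (A0.finComp v g) (A0.finComp v m) (finVec v (actV μ'⁻¹ ξ))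
        = ((Real.sqrt ‖(a : A0.Adl K).2 v‖ : ℝ) : ℂ)
          * L.Ffin v (A0.finComp v (d * g)) (A0.finComp v (μ' * m)) (finVec v ξ) := by
    intro v
    have hdv : A0.finComp v d = !![1, 0; 0, (A0.finComp v μ').det] := by
      rw [finComp_eq569, hd, map_fin_two569, finComp_det569]
      rfl
    rw [finComp_mul569, finComp_mul569, hdv]
    have h1 := (hL.fin v).ax.tor (A0.finComp v μ') (inTorL_fin569 hμ v)
      (finComp_det_ne_zero569 v μ') (A0.finComp v g) (A0.finComp v m) (finVec v ξ)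
      (admL_fin569 h v)
    rw [← finComp_inv569] at h1
    rw [finComp_det569] at h1 ⊢
    exact h1.symm
  have hadm : Adm L.t L.n (d * g) (μ' * m) := adm_tor569 hμ hd h
  have hN : Function.HasFiniteMulSupport fun v : HeightOneSpectrum (𝓞 K) =>
      ‖(a : A0.Adl K).2 v‖ := hasFiniteMulSupport_norm569 a
  have hsq : Function.HasFiniteMulSupport fun v : HeightOneSpectrum (𝓞 K) =>
      Real.sqrt ‖(a : A0.Adl K).2 v‖ := by
    refine hN.subset ?_
    intro v hv
    rw [Function.mem_mulSupport] at hv ⊢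
    intro h1
    apply hv
    rw [h1, Real.sqrt_one]
  have hsqc : Function.HasFiniteMulSupport fun v : HeightOneSpectrum (𝓞 K) =>
      ((Real.sqrt ‖(a : A0.Adl K).2 v‖ : ℝ) : ℂ) := by
    refine hsq.subset ?_
    intro v hv
    rw [Function.mem_mulSupport] at hv ⊢
    intro h1
    apply hv
    rw [h1, Complex.ofReal_one]
  have hnorm : ((Real.sqrt (Fermat.Agent.LT.T1.adNorm K (a : A0.Adl K)) : ℝ) : ℂ)
      = (∏ u : InfinitePlace K, ((Real.sqrt (‖(a : A0.Adl K).1 u‖ ^ u.mult) : ℝ) : ℂ))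
        * ∏ᶠ v : HeightOneSpectrum (𝓞 K), ((Real.sqrt ‖(a : A0.Adl K).2 v‖ : ℝ) : ℂ) := by
    have hdef : Fermat.Agent.LT.T1.adNorm K (a : A0.Adl K)
        = (∏ u : InfinitePlace K, ‖(a : A0.Adl K).1 u‖ ^ u.mult)
          * ∏ᶠ v : HeightOneSpectrum (𝓞 K), ‖(a : A0.Adl K).2 v‖ := rfl
    have hA : 0 ≤ ∏ u : InfinitePlace K, ‖(a : A0.Adl K).1 u‖ ^ u.mult :=
      Finset.prod_nonneg fun u _ => pow_nonneg (norm_nonneg _) _
    rw [hdef, Real.sqrt_mul hA,
      sqrt_finset_prod569 _ (fun u : InfinitePlace K => ‖(a : A0.Adl K).1 u‖ ^ u.mult)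
        (fun u => pow_nonneg (norm_nonneg _) _),
      sqrt_finprod569 (fun v : HeightOneSpectrum (𝓞 K) => ‖(a : A0.Adl K).2 v‖)
        (fun v => norm_nonneg _) hN, Complex.ofReal_mul, Complex.ofReal_prod]
    congr 1
    exact map_finprod Complex.ofRealHom hsq
  rw [F_eq569, F_eq569, hnorm]
  simp only [hinf, hfin]
  rw [Finset.prod_mul_distrib,
    finprod_mul_distrib hsqc (hasFiniteMulSupport_Ffin569 L hL hadm ξ)]
  ring

theorem tor1_569 (L : WData K) (hL : L.IsGood) (m' : A0.G K) (hm' : InTorus1 L.t L.n m')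
    (g m : A0.G K) (ξ : A0.Adl K × A0.Adl K) (h : Adm L.t L.n g m) :
    L.toKData.F g (m' * m) ξ = L.toKData.F g m (actV m'⁻¹ ξ) := by
  have hd : WL.IsDiagOneA (1 : A0.G K) (Matrix.GeneralLinearGroup.det m') := by
    unfold WL.IsDiagOneA
    rw [hm'.2, Units.val_one, Units.val_one]
    exact Matrix.one_fin_two
  have h1 := torA569 L hL m' 1 hm'.1 hd g m ξ h
  rw [one_mul] at h1
  rw [← h1, hm'.2]
  have hone : Fermat.Agent.LT.T1.adNorm K (((1 : (A0.Adl K)ˣ) : (A0.Adl K)ˣ) : A0.Adl K) = 1 := by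
    unfold Fermat.Agent.LT.T1.adNorm
    have e1 : ∀ u : InfinitePlace K, ‖((1 : (A0.Adl K)ˣ) : A0.Adl K).1 u‖ ^ u.mult = 1 := by
      intro u
      have : ((1 : (A0.Adl K)ˣ) : A0.Adl K).1 u = 1 := rfl
      rw [this, norm_one, one_pow]
    have e2 : ∀ v : HeightOneSpectrum (𝓞 K), ‖((1 : (A0.Adl K)ˣ) : A0.Adl K).2 v‖ = 1 := by
      intro v
      have : ((1 : (A0.Adl K)ˣ) : A0.Adl K).2 v = 1 := rfl
      rw [this, norm_one]
    rw [Finset.prod_eq_one fun u _ => e1 u, finprod_eq_one_of_forall_eq_one e2, one_mul]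
  rw [hone, Real.sqrt_one, Complex.ofReal_one, one_mul]

/-! ## `diagA` -/

theorem diagA569 (L : WData K) (hL : L.IsGood) (s : A0.G K) (a : (A0.Adl K)ˣ)
    (hs : WL.IsDiagSLA s a) (g m : A0.G K) (ξ : A0.Adl K × A0.Adl K)
    (h : Adm L.t L.n g m) :
    L.toKData.F (s * g) m ξ
      = L.η a * ((Fermat.Agent.LT.T1.adNorm K (a : A0.Adl K) : ℝ) : ℂ)
        * L.toKData.F g m ((a : A0.Adl K) • ξ) := by
  have hinf : ∀ u : InfinitePlace K,
      L.Finf u (infMat u (s * g)) (infMat u m) (infVec u ξ)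
        = L.ηinf u ((a : A0.Adl K).1 u) * ((‖(a : A0.Adl K).1 u‖ ^ u.mult : ℝ) : ℂ)
          * L.Finf u (infMat u g) (infMat u m) (infVec u ((a : A0.Adl K) • ξ)) := by
    intro u
    have hsu : infMat u s = !![(a : A0.Adl K).1 u, 0; 0, ((a : A0.Adl K).1 u)⁻¹] := by
      rw [infMat_eq569, hs, map_fin_two569, ← inf_inv569]
      rfl
    rw [infMat_mul569, hsu]
    exact (hL.cpx u).ax.diag _ (inf_ne_zero569 a u) _ _ _ (admL_inf569 h u)
  have hfin : ∀ v : HeightOneSpectrum (𝓞 K),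
      L.Ffin v (A0.finComp v (s * g)) (A0.finComp v m) (finVec v ξ)
        = L.ηfin v ((a : A0.Adl K).2 v) * ((‖(a : A0.Adl K).2 v‖ : ℝ) : ℂ)
          * L.Ffin v (A0.finComp v g) (A0.finComp v m) (finVec v ((a : A0.Adl K) • ξ)) := by
    intro v
    have hsv : A0.finComp v s = !![(a : A0.Adl K).2 v, 0; 0, ((a : A0.Adl K).2 v)⁻¹] := by
      rw [finComp_eq569, hs, map_fin_two569, ← fin_inv569]
      rfl
    rw [finComp_mul569, hsv]
    exact (hL.fin v).ax.diag _ (fin_ne_zero569 a v) _ _ _ (admL_fin569 h v)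
  have hN : Function.HasFiniteMulSupport fun v : HeightOneSpectrum (𝓞 K) =>
      ‖(a : A0.Adl K).2 v‖ := hasFiniteMulSupport_norm569 a
  have hNc : Function.HasFiniteMulSupport fun v : HeightOneSpectrum (𝓞 K) =>
      ((‖(a : A0.Adl K).2 v‖ : ℝ) : ℂ) := by
    refine hN.subset ?_
    intro v hv
    rw [Function.mem_mulSupport] at hv ⊢
    intro h1
    apply hv
    rw [h1, Complex.ofReal_one]
  have hη := hasFiniteMulSupport_etafin569 L hL a
  have hnorm : ((Fermat.Agent.LT.T1.adNorm K (a : A0.Adl K) : ℝ) : ℂ)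
      = (∏ u : InfinitePlace K, ((‖(a : A0.Adl K).1 u‖ ^ u.mult : ℝ) : ℂ))
        * ∏ᶠ v : HeightOneSpectrum (𝓞 K), ((‖(a : A0.Adl K).2 v‖ : ℝ) : ℂ) := by
    have hdef : Fermat.Agent.LT.T1.adNorm K (a : A0.Adl K)
        = (∏ u : InfinitePlace K, ‖(a : A0.Adl K).1 u‖ ^ u.mult)
          * ∏ᶠ v : HeightOneSpectrum (𝓞 K), ‖(a : A0.Adl K).2 v‖ := rfl
    rw [hdef, Complex.ofReal_mul, Complex.ofReal_prod]
    congr 1
    exact map_finprod Complex.ofRealHom hN
  have hηN : Function.HasFiniteMulSupport fun v : HeightOneSpectrum (𝓞 K) =>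
      L.ηfin v ((a : A0.Adl K).2 v) * ((‖(a : A0.Adl K).2 v‖ : ℝ) : ℂ) := hη.mul hNc
  rw [F_eq569, F_eq569, hnorm, hL.eta_prod a]
  simp only [hinf, hfin]
  rw [Finset.prod_mul_distrib, Finset.prod_mul_distrib,
    finprod_mul_distrib hηN (hasFiniteMulSupport_Ffin569 L hL h _),
    finprod_mul_distrib hη hNc]
  ring

/-! ## The quadratic character -/

theorem eta_mul569 (L : WData K) (hL : L.IsGood) (a b : (A0.Adl K)ˣ) :
    L.η (a * b) = L.η a * L.η b := by
  rw [eta_eq569 L hL, eta_eq569 L hL, eta_eq569 L hL,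
    ← finprod_mul_distrib (hasFiniteMulSupport_etafin569 L hL a)
      (hasFiniteMulSupport_etafin569 L hL b)]
  apply finprod_congr
  intro v
  exact (hL.fin v).ax.eta_mul _ _ (fin_ne_zero569 a v) (fin_ne_zero569 b v)

theorem finset_prod_sq569 {ι : Type*} (s : Finset ι) (f : ι → ℂ)
    (hf : ∀ i ∈ s, f i = 1 ∨ f i = -1) : (∏ i ∈ s, f i) = 1 ∨ (∏ i ∈ s, f i) = -1 := by
  classical
  induction s using Finset.induction_on with
  | empty => left; simp
  | insert a s ha ih =>
    rw [Finset.prod_insert ha]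
    have h1 := hf a (Finset.mem_insert_self a s)
    have h2 := ih fun i hi => hf i (Finset.mem_insert_of_mem hi)
    rcases h1 with h1 | h1 <;> rcases h2 with h2 | h2 <;> rw [h1, h2] <;> simp

theorem eta_sq569 (L : WData K) (hL : L.IsGood) (a : (A0.Adl K)ˣ) :
    L.η a = 1 ∨ L.η a = -1 := by
  have hfin' : (Function.mulSupport fun v : HeightOneSpectrum (𝓞 K) =>
      L.ηfin v ((a : A0.Adl K).2 v)).Finite := hasFiniteMulSupport_etafin569 L hL a
  have hsub0 : (Function.mulSupport fun v : HeightOneSpectrum (𝓞 K) =>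
      L.ηfin v ((a : A0.Adl K).2 v)) ⊆ (hfin'.toFinset : Set (HeightOneSpectrum (𝓞 K))) := by
    rw [Set.Finite.coe_toFinset]
  rw [eta_eq569 L hL, finprod_eq_prod_of_mulSupport_subset _ hsub0]
  apply finset_prod_sq569
  intro v _
  exact (hL.fin v).ax.eta_sq _ (fin_ne_zero569 a v)

theorem eta_norm569 (L : WData K) (hL : L.IsGood) (m : A0.G K) (hm : InTorus L.t L.n m) :
    L.η (Matrix.GeneralLinearGroup.det m) = 1 := by
  rw [eta_eq569 L hL]
  apply finprod_eq_one_of_forall_eq_one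
  intro v
  have h1 := (hL.fin v).ax.eta_norm (A0.finComp v m) (inTorL_fin569 hm v)
    (finComp_det_ne_zero569 v m)
  rw [finComp_det569] at h1
  exact h1

theorem eta_cont569 (L : WData K) (hL : L.IsGood) : Continuous L.η := by
  classical
  have hη : L.η = fun a : (A0.Adl K)ˣ =>
      ∏ᶠ v : HeightOneSpectrum (𝓞 K), L.ηfin v ((a : A0.Adl K).2 v) :=
    funext fun a => eta_eq569 L hL a
  rw [hη, continuous_iff_continuousAt]
  intro x₀
  have hbad : {v : HeightOneSpectrum (𝓞 K) | v.asIdeal ∣ L.π.level}.Finite :=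
    Ideal.finite_factors L.π.level_ne_bot
  have hun : {v : HeightOneSpectrum (𝓞 K) | ¬ Valued.v ((x₀ : A0.Adl K).2 v) = 1}.Finite := by
    have := eventually_unit569 x₀
    rwa [Filter.eventually_cofinite] at this
  set S : Set (HeightOneSpectrum (𝓞 K)) :=
    {v | v.asIdeal ∣ L.π.level} ∪ {v | ¬ Valued.v ((x₀ : A0.Adl K).2 v) = 1} with hS
  have hSfin : S.Finite := hbad.union hun
  let O : Set (FiniteAdeleRing (𝓞 K) K) :=
    {f | ∀ v, v ∉ S → f v ∈ v.adicCompletionIntegers K}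
  have hO : IsOpen O := Fermat.Agent.LT.T1.H638.isOpen_integral_outside638 K S
  let U : Set (A0.Adl K)ˣ :=
    {x | (x : A0.Adl K).2 ∈ O ∧ ((x⁻¹ : (A0.Adl K)ˣ) : A0.Adl K).2 ∈ O}
  have hU : IsOpen U := by
    apply IsOpen.inter
    · exact hO.preimage
        ((Fermat.Agent.LT.T1.H638.continuous_finHom638 K).comp Units.continuous_val)
    · exact hO.preimage
        ((Fermat.Agent.LT.T1.H638.continuous_finHom638 K).comp Units.continuous_coe_inv)
  have hx₀ : x₀ ∈ U := by
    constructor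
    · intro v hv
      have h1 : Valued.v ((x₀ : A0.Adl K).2 v) = 1 := by
        by_contra hne
        exact hv (Or.inr hne)
      rw [HeightOneSpectrum.mem_adicCompletionIntegers]
      exact h1.le
    · intro v hv
      have h1 : Valued.v ((x₀ : A0.Adl K).2 v) = 1 := by
        by_contra hne
        exact hv (Or.inr hne)
      have h2 := Fermat.Agent.LT.T1.H638.snd_mul_inv638 K x₀ v
      have h3 : Valued.v ((x₀ : A0.Adl K).2 v)
          * Valued.v (((x₀⁻¹ : (A0.Adl K)ˣ) : A0.Adl K).2 v) = 1 := by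
        rw [← map_mul, h2, map_one]
      rw [h1, one_mul] at h3
      rw [HeightOneSpectrum.mem_adicCompletionIntegers]
      exact h3.le
  have hloc : ∀ x ∈ U, ∏ᶠ v : HeightOneSpectrum (𝓞 K), L.ηfin v ((x : A0.Adl K).2 v)
      = ∏ v ∈ hSfin.toFinset, L.ηfin v ((x : A0.Adl K).2 v) := by
    intro x hx
    apply finprod_eq_prod_of_mulSupport_subset
    intro v hv
    rw [Function.mem_mulSupport] at hv
    by_contra hvS
    have hvS' : v ∉ S := by simpa using hvS
    apply hv
    have hgood : ¬ v.asIdeal ∣ L.π.level := fun hd => hvS' (Or.inl hd)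
    apply etafin_eq_one569 L hL v hgood
    have h1 := hx.1 v hvS'
    have h2 := hx.2 v hvS'
    rw [HeightOneSpectrum.mem_adicCompletionIntegers] at h1 h2
    exact Fermat.Agent.LT.T1.H638.valued_eq_one_of_mul_eq_one638 K v _ _
      (Fermat.Agent.LT.T1.H638.snd_mul_inv638 K x v) h1 h2
  have hcont : Continuous fun x : (A0.Adl K)ˣ =>
      ∏ v ∈ hSfin.toFinset, L.ηfin v ((x : A0.Adl K).2 v) := by
    apply continuous_finsetProd
    intro v _
    have hev : Continuous fun x : (A0.Adl K)ˣ => (x : A0.Adl K).2 v :=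
      (RestrictedProduct.continuous_eval v).comp
        ((Fermat.Agent.LT.T1.H638.continuous_finHom638 K).comp Units.continuous_val)
    exact (hL.fin v).ax.eta_cont.comp_continuous hev fun x => fin_ne_zero569 x v
  refine hcont.continuousAt.congr ?_
  filter_upwards [hU.mem_nhds hx₀] with x hx
  exact (hloc x hx).symm

/-! ## The leaf -/

/-- **A2.03.1.2 BOREL** (registry row 1136), VERBATIM. -/
theorem borelC569 : BorelC := by
  intro K _ _ L _ hL
  exact
    { unip := fun nU hn x g m ξ h => unip569 L hL nU hn x g m ξ h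
      tor1 := fun m' hm' g m ξ h => tor1_569 L hL m' hm' g m ξ h
      diagA := fun s a hs g m ξ h => diagA569 L hL s a hs g m ξ h
      torA := fun μ' d hμ hd g m ξ h => torA569 L hL μ' d hμ hd g m ξ h
      eta_mul := eta_mul569 L hL
      eta_sq := eta_sq569 L hL
      eta_cont := eta_cont569 L hL
      eta_norm := fun m hm => eta_norm569 L hL m hm }

end Fermat.Agent.LT.A2.H569
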