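import Fermat.Agent.LT.A2.H467.WeilExSpec
import Fermat.Agent.LT.T1.H793.AdeleProj
import Fermat.Agent.LT.T1.H638.AdNorm
import Fermat.Agent.LT.T2.H566.Local

/-!
# Row LT, tower A2, leaf A2.03.1.2 `WX467.BorelC` -- part 1 (helper569): local components

OFF-MAIN.  Components of products, determinants and inverses of adelic matrices; local
admissibility from adelic admissibility; at almost all places the local factor of the product
family is `1` (`hasFiniteMulSupport_Ffin569`).  Reusable by the sibling leaves of the station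
`A2.03.1` (helper467).
-/

set_option autoImplicit false

open IsDedekindDomain NumberField AutomorphicForm MeasureTheory
open scoped MatrixGroups Topology

noncomputable section

namespace Fermat.Agent.LT.A2.H569

open Fermat.Agent.LT.H130 Fermat.Agent.LT.H556 Fermat.Agent.LT.A2 Fermat.Agent.LT.A2.WX467
open Fermat.Agent.LT.T1.H793

variable {K : Type} [Field K] [NumberField K]

/-! ## Components of matrices -/

theorem infMat_eq569 (u : InfinitePlace K) (g : A0.G K) :
    infMat u g = (g : Matrix (Fin 2) (Fin 2) (A0.Adl K)).map (projInf793 u) := rfl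

theorem finComp_eq569 (v : HeightOneSpectrum (𝓞 K)) (g : A0.G K) :
    A0.finComp v g = (g : Matrix (Fin 2) (Fin 2) (A0.Adl K)).map (projFin793 v) := rfl

theorem infMat_mul569 (u : InfinitePlace K) (g h : A0.G K) :
    infMat u (g * h) = infMat u g * infMat u h := by
  rw [infMat_eq569, infMat_eq569, infMat_eq569, Units.val_mul, Matrix.map_mul]

theorem finComp_mul569 (v : HeightOneSpectrum (𝓞 K)) (g h : A0.G K) :
    A0.finComp v (g * h) = A0.finComp v g * A0.finComp v h := by
  rw [finComp_eq569, finComp_eq569, finComp_eq569, Units.val_mul, Matrix.map_mul]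

theorem infMat_one569 (u : InfinitePlace K) : infMat u (1 : A0.G K) = 1 := by
  rw [infMat_eq569, Units.val_one, Matrix.map_one _ (map_zero _) (map_one _)]

theorem finComp_one569 (v : HeightOneSpectrum (𝓞 K)) : A0.finComp v (1 : A0.G K) = 1 := by
  rw [finComp_eq569, Units.val_one, Matrix.map_one _ (map_zero _) (map_one _)]

theorem infMat_inv569 (u : InfinitePlace K) (g : A0.G K) :
    infMat u g⁻¹ = (infMat u g)⁻¹ := by
  symm
  apply Matrix.inv_eq_right_inv
  rw [← infMat_mul569, mul_inv_cancel, infMat_one569]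

theorem finComp_inv569 (v : HeightOneSpectrum (𝓞 K)) (g : A0.G K) :
    A0.finComp v g⁻¹ = (A0.finComp v g)⁻¹ := by
  symm
  apply Matrix.inv_eq_right_inv
  rw [← finComp_mul569, mul_inv_cancel, finComp_one569]

theorem infMat_det569 (u : InfinitePlace K) (g : A0.G K) :
    (infMat u g).det = ((Matrix.GeneralLinearGroup.det g : (A0.Adl K)ˣ) : A0.Adl K).1 u := by
  rw [infMat_eq569, Matrix.GeneralLinearGroup.val_det_apply]
  exact ((projInf793 u).map_det _).symm

theorem finComp_det569 (v : HeightOneSpectrum (𝓞 K)) (g : A0.G K) :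
    (A0.finComp v g).det = ((Matrix.GeneralLinearGroup.det g : (A0.Adl K)ˣ) : A0.Adl K).2 v := by
  rw [finComp_eq569, Matrix.GeneralLinearGroup.val_det_apply]
  exact ((projFin793 v).map_det _).symm

/-- The components of an idele at the finite places are nonzero. -/
theorem fin_ne_zero569 (a : (A0.Adl K)ˣ) (v : HeightOneSpectrum (𝓞 K)) :
    (a : A0.Adl K).2 v ≠ 0 :=
  Fermat.Agent.LT.T1.H638.snd_ne_zero638 K a v

/-- The components of an idele at the infinite places are nonzero. -/
theorem inf_ne_zero569 (a : (A0.Adl K)ˣ) (u : InfinitePlace K) :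
    (a : A0.Adl K).1 u ≠ 0 :=
  Fermat.Agent.LT.T1.H638.fst_ne_zero638 K a u

theorem fin_inv569 (a : (A0.Adl K)ˣ) (v : HeightOneSpectrum (𝓞 K)) :
    ((a⁻¹ : (A0.Adl K)ˣ) : A0.Adl K).2 v = ((a : A0.Adl K).2 v)⁻¹ := by
  have h : (a : A0.Adl K).2 v * ((a⁻¹ : (A0.Adl K)ˣ) : A0.Adl K).2 v = 1 :=
    Fermat.Agent.LT.T1.H638.snd_mul_inv638 K a v
  exact eq_inv_of_mul_eq_one_right h

theorem inf_inv569 (a : (A0.Adl K)ˣ) (u : InfinitePlace K) :
    ((a⁻¹ : (A0.Adl K)ˣ) : A0.Adl K).1 u = ((a : A0.Adl K).1 u)⁻¹ := by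
  have h0 : (a : A0.Adl K) * ((a⁻¹ : (A0.Adl K)ˣ) : A0.Adl K) = 1 := a.mul_inv
  have h : (a : A0.Adl K).1 u * ((a⁻¹ : (A0.Adl K)ˣ) : A0.Adl K).1 u = 1 :=
    congrArg (fun y : A0.Adl K => y.1 u) h0
  exact eq_inv_of_mul_eq_one_right h

theorem infMat_det_ne_zero569 (u : InfinitePlace K) (g : A0.G K) : (infMat u g).det ≠ 0 := by
  rw [infMat_det569]
  exact inf_ne_zero569 _ u

theorem finComp_det_ne_zero569 (v : HeightOneSpectrum (𝓞 K)) (g : A0.G K) :
    (A0.finComp v g).det ≠ 0 := by
  rw [finComp_det569]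
  exact fin_ne_zero569 _ v

/-! ## The torus, admissible pairs -/

theorem torMat_map569 {R S : Type} [CommRing R] [CommRing S] (f : R →+* S) (t n a b : R) :
    (torMat t n a b).map f = torMat (f t) (f n) (f a) (f b) := by
  ext i j
  fin_cases i <;> fin_cases j <;> simp [torMat]

theorem inTorL_fin569 {t n : K} {m : A0.G K} (hm : InTorus t n m)
    (v : HeightOneSpectrum (𝓞 K)) :
    InTorL (algebraMap K (v.adicCompletion K) t) (algebraMap K (v.adicCompletion K) n)
      (A0.finComp v m) := by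
  obtain ⟨a, b, hab⟩ := hm
  refine ⟨a.2 v, b.2 v, ?_⟩
  rw [finComp_eq569, hab, torMat_map569]
  rfl

theorem inTorL_inf569 {t n : K} {m : A0.G K} (hm : InTorus t n m) (u : InfinitePlace K) :
    InTorL (algebraMap K u.Completion t) (algebraMap K u.Completion n) (infMat u m) := by
  obtain ⟨a, b, hab⟩ := hm
  refine ⟨a.1 u, b.1 u, ?_⟩
  rw [infMat_eq569, hab, torMat_map569]
  rfl

theorem admL_fin569 {t n : K} {g m : A0.G K} (h : Adm t n g m) (v : HeightOneSpectrum (𝓞 K)) :
    AdmL (algebraMap K (v.adicCompletion K) t) (algebraMap K (v.adicCompletion K) n)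
      (A0.finComp v g) (A0.finComp v m) := by
  refine ⟨inTorL_fin569 h.1 v, ?_, finComp_det_ne_zero569 v m⟩
  rw [finComp_det569, finComp_det569, h.2]

theorem admL_inf569 {t n : K} {g m : A0.G K} (h : Adm t n g m) (u : InfinitePlace K) :
    AdmL (algebraMap K u.Completion t) (algebraMap K u.Completion n)
      (infMat u g) (infMat u m) := by
  refine ⟨inTorL_inf569 h.1 u, ?_, infMat_det_ne_zero569 u m⟩
  rw [infMat_det569, infMat_det569, h.2]

theorem inTorL_one569 {k : Type} [Field k] (t n : k) : InTorL t n (1 : Matrix (Fin 2) (Fin 2) k) := by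
  refine ⟨1, 0, ?_⟩
  ext i j
  fin_cases i <;> fin_cases j <;> simp [torMat]

theorem admL_one569 {k : Type} [Field k] (t n : k) :
    AdmL t n (1 : Matrix (Fin 2) (Fin 2) k) 1 :=
  ⟨inTorL_one569 t n, rfl, by simp⟩

/-- The torus is stable under multiplication. -/
theorem torMat_mul569 {R : Type} [CommRing R] (t n a b a' b' : R) :
    torMat t n a b * torMat t n a' b'
      = torMat t n (a * a' - n * (b * b')) (a * b' + b * a' + t * (b * b')) := by
  ext i j
  fin_cases i <;> fin_cases j <;> simp [torMat, Matrix.mul_apply, Fin.sum_univ_two] <;> ring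

theorem inTorus_mul569 {t n : K} {m m' : A0.G K} (hm : InTorus t n m) (hm' : InTorus t n m') :
    InTorus t n (m * m') := by
  obtain ⟨a, b, hab⟩ := hm
  obtain ⟨a', b', hab'⟩ := hm'
  refine ⟨a * a' - algebraMap K (A0.Adl K) n * (b * b'),
    a * b' + b * a' + algebraMap K (A0.Adl K) t * (b * b'), ?_⟩
  rw [Units.val_mul, hab, hab', torMat_mul569]

/-! ## Integrality at almost all places -/

theorem eventually_integral_adl569 (x : A0.Adl K) :
    ∀ᶠ v : HeightOneSpectrum (𝓞 K) in Filter.cofinite, x.2 v ∈ v.adicCompletionIntegers K :=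
  x.2.2

theorem eventually_integral_gl569 (g : A0.G K) :
    ∀ᶠ v : HeightOneSpectrum (𝓞 K) in Filter.cofinite,
      ∀ i j : Fin 2, A0.finComp v g i j ∈ v.adicCompletionIntegers K := by
  rw [Filter.eventually_all]
  intro i
  rw [Filter.eventually_all]
  intro j
  exact eventually_integral_adl569 ((g : Matrix (Fin 2) (Fin 2) (A0.Adl K)) i j)

theorem eventually_good569 (π : HeckeEigensystem K ℂ) :
    ∀ᶠ v : HeightOneSpectrum (𝓞 K) in Filter.cofinite, ¬ v.asIdeal ∣ π.level := by
  rw [Filter.eventually_cofinite]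
  simp only [not_not]
  exact Ideal.finite_factors π.level_ne_bot

/-- An integral matrix with integral inverse is in the local level group at a place prime to
the level. -/
theorem inLevL_of_integral569 (𝔫 : Ideal (𝓞 K)) (v : HeightOneSpectrum (𝓞 K))
    (hv : ¬ v.asIdeal ∣ 𝔫) (k : Matrix (Fin 2) (Fin 2) (v.adicCompletion K)) (hk0 : k.det ≠ 0)
    (hk : ∀ i j : Fin 2, k i j ∈ v.adicCompletionIntegers K)
    (hk' : ∀ i j : Fin 2, k⁻¹ i j ∈ v.adicCompletionIntegers K) : InLevL 𝔫 v k := by
  have hone : ∀ i j : Fin 2,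
      (1 : Matrix (Fin 2) (Fin 2) (v.adicCompletion K)) i j ∈ v.adicCompletionIntegers K := by
    intro i j
    by_cases hij : i = j
    · rw [hij, Matrix.one_apply_eq]; exact one_mem _
    · rw [Matrix.one_apply_ne hij]; exact zero_mem _
  refine ⟨hk0, fun i j => ⟨?_, ?_⟩⟩
  · apply Fermat.Agent.LT.T2.H566.integers_subset_idealClosure566 𝔫 v hv
    rw [Matrix.sub_apply]
    exact sub_mem (hk i j) (hone i j)
  · apply Fermat.Agent.LT.T2.H566.integers_subset_idealClosure566 𝔫 v hv
    rw [Matrix.sub_apply]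
    exact sub_mem (hk' i j) (hone i j)

/-- **The local factor at a good place** for integral `g`, `m`, `ξ` is `1`. -/
theorem Ffin_eq_one569 (L : WData K) (hL : L.IsGood) (v : HeightOneSpectrum (𝓞 K))
    (hv : ¬ v.asIdeal ∣ L.π.level) {g m : A0.G K} (h : Adm L.t L.n g m)
    (hg : ∀ i j : Fin 2, A0.finComp v g i j ∈ v.adicCompletionIntegers K)
    (hg' : ∀ i j : Fin 2, A0.finComp v g⁻¹ i j ∈ v.adicCompletionIntegers K)
    (hm : ∀ i j : Fin 2, A0.finComp v m i j ∈ v.adicCompletionIntegers K)
    (hm' : ∀ i j : Fin 2, A0.finComp v m⁻¹ i j ∈ v.adicCompletionIntegers K)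
    (ξ : v.adicCompletion K × v.adicCompletion K)
    (hξ : ξ.1 ∈ v.adicCompletionIntegers K ∧ ξ.2 ∈ v.adicCompletionIntegers K) :
    L.Ffin v (A0.finComp v g) (A0.finComp v m) ξ = 1 := by
  have hadm := admL_fin569 h v
  have hG := hL.good v hv
  have hF := hL.fin v
  have hk : InLevL L.π.level v (A0.finComp v g) := by
    apply inLevL_of_integral569 _ v hv _ (finComp_det_ne_zero569 v g) hg
    rw [← finComp_inv569]
    exact hg'
  have hκ : A0.finComp v m ∈ L.Tlev v := by
    rw [hG.tlev]
    refine ⟨hadm.1, hadm.2.2, hm, ?_⟩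
    rw [← finComp_inv569]
    exact hm'
  have h1 := hF.right_inv (A0.finComp v g) (A0.finComp v m) hk hκ hadm.2.1 1 1 ξ
    (admL_one569 _ _)
  rw [one_mul, one_mul] at h1
  rw [h1, hG.std]
  unfold stdFn
  rw [if_pos hξ]

/-- For an admissible pair and any vector the set of the places with local factor `≠ 1` is
contained in a finite set. -/
theorem eventually_Ffin_eq_one569 (L : WData K) (hL : L.IsGood) {g m : A0.G K}
    (h : Adm L.t L.n g m) (ξ : A0.Adl K × A0.Adl K) :
    ∀ᶠ v : HeightOneSpectrum (𝓞 K) in Filter.cofinite,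
      L.Ffin v (A0.finComp v g) (A0.finComp v m) (finVec v ξ) = 1 := by
  filter_upwards [eventually_good569 L.π, eventually_integral_gl569 g,
    eventually_integral_gl569 g⁻¹, eventually_integral_gl569 m, eventually_integral_gl569 m⁻¹,
    eventually_integral_adl569 ξ.1, eventually_integral_adl569 ξ.2]
    with v hv hg hg' hm hm' hξ1 hξ2
  exact Ffin_eq_one569 L hL v hv h hg hg' hm hm' _ ⟨hξ1, hξ2⟩

theorem hasFiniteMulSupport_Ffin569 (L : WData K) (hL : L.IsGood) {g m : A0.G K}
    (h : Adm L.t L.n g m) (ξ : A0.Adl K × A0.Adl K) :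
    Function.HasFiniteMulSupport fun v : HeightOneSpectrum (𝓞 K) =>
      L.Ffin v (A0.finComp v g) (A0.finComp v m) (finVec v ξ) := by
  have := eventually_Ffin_eq_one569 L hL h ξ
  rw [Filter.eventually_cofinite] at this
  exact this

end Fermat.Agent.LT.A2.H569
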