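import Fermat.Agent.LT.A2.H569.BorelLoc

/-!
# Row LT, tower A2, leaf A2.03.1.2 `WX467.BorelC` -- part 2 (helper569): `ψ = ∏ ψ_v`

OFF-MAIN.  Adeles supported at one place, the decomposition of an adele, and the product formula
for a continuous additive character of the adeles which is trivial on `𝒪_v` at almost all `v`
(`psi_prod569`).
-/

set_option autoImplicit false

open IsDedekindDomain NumberField AutomorphicForm MeasureTheory
open scoped MatrixGroups Topology

noncomputable section

namespace Fermat.Agent.LT.A2.H569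

open Fermat.Agent.LT.H130 Fermat.Agent.LT.H556 Fermat.Agent.LT.A2 Fermat.Agent.LT.A2.WX467
open Fermat.Agent.LT.T1.H793

variable {K : Type} [Field K] [NumberField K]

/-! ## Adeles supported at one place -/

open scoped Classical in
/-- The finite adele with component `x` at `v` and `0` elsewhere. -/
def finSingle569 (v : HeightOneSpectrum (𝓞 K)) (x : v.adicCompletion K) :
    FiniteAdeleRing (𝓞 K) K :=
  ⟨Pi.single v x, by
    rw [Filter.eventually_cofinite]
    refine (Set.finite_singleton v).subset ?_
    intro w hw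
    by_contra hne
    apply hw
    have hne' : w ≠ v := hne
    rw [Pi.single_eq_of_ne hne']
    exact zero_mem _⟩

theorem finSingle569_same (v : HeightOneSpectrum (𝓞 K)) (x : v.adicCompletion K) :
    finSingle569 v x v = x := by
  classical
  exact Pi.single_eq_same v x

theorem finSingle569_of_ne {v w : HeightOneSpectrum (𝓞 K)} (h : w ≠ v)
    (x : v.adicCompletion K) : finSingle569 v x w = 0 := by
  classical
  exact Pi.single_eq_of_ne h x

theorem finSingle569_zero (v : HeightOneSpectrum (𝓞 K)) :
    finSingle569 v (0 : v.adicCompletion K) = 0 := by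
  classical
  apply FiniteAdeleRing.ext (K := K)
  intro w
  by_cases h : w = v
  · subst h
    rw [finSingle569_same]
    rfl
  · rw [finSingle569_of_ne h]
    rfl

/-- The adele supported at the finite place `v` with component `x`. -/
def adlFin569 (v : HeightOneSpectrum (𝓞 K)) (x : v.adicCompletion K) : A0.Adl K :=
  (0, finSingle569 v x)

open scoped Classical in
/-- The adele supported at the infinite place `u` with component `x`. -/
def adlInf569 (u : InfinitePlace K) (x : u.Completion) : A0.Adl K :=
  (Pi.single u x, 0)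

theorem adlFin569_atFin (v : HeightOneSpectrum (𝓞 K)) (x : v.adicCompletion K) :
    WL.AdlAtFin v (adlFin569 v x) :=
  ⟨fun _ => rfl, fun _ h => finSingle569_of_ne h x⟩

theorem adlFin569_apply (v : HeightOneSpectrum (𝓞 K)) (x : v.adicCompletion K) :
    (adlFin569 v x).2 v = x :=
  finSingle569_same v x

theorem adlFin569_zero (v : HeightOneSpectrum (𝓞 K)) :
    adlFin569 v (0 : v.adicCompletion K) = 0 := by
  unfold adlFin569
  rw [finSingle569_zero]
  rfl

theorem adlInf569_atInf (u : InfinitePlace K) (x : u.Completion) :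
    WL.AdlAtInf u (adlInf569 u x) := by
  classical
  exact ⟨fun w h => Pi.single_eq_of_ne h x, fun _ => rfl⟩

theorem adlInf569_apply (u : InfinitePlace K) (x : u.Completion) :
    (adlInf569 u x).1 u = x := by
  classical
  exact Pi.single_eq_same u x

theorem adlInf569_of_ne {u w : InfinitePlace K} (h : w ≠ u) (x : u.Completion) :
    (adlInf569 u x).1 w = 0 := by
  classical
  exact Pi.single_eq_of_ne h x

open scoped Classical in
/-- The adele `y` with the components at the infinite places and at the places of `S` replaced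
by `0`. -/
def rest569 (S : Finset (HeightOneSpectrum (𝓞 K))) (y : A0.Adl K) : A0.Adl K :=
  (0, ⟨fun v => if v ∈ S then 0 else y.2 v, by
    have h := eventually_integral_adl569 y
    filter_upwards [h] with v hv
    by_cases hvS : v ∈ S
    · simp only [hvS, if_true]
      exact zero_mem _
    · simp only [hvS, if_false]
      exact hv⟩)

theorem rest569_fst (S : Finset (HeightOneSpectrum (𝓞 K))) (y : A0.Adl K) :
    (rest569 S y).1 = 0 := rfl

theorem rest569_of_mem {S : Finset (HeightOneSpectrum (𝓞 K))} (y : A0.Adl K)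
    {v : HeightOneSpectrum (𝓞 K)} (hv : v ∈ S) : (rest569 S y).2 v = 0 := by
  classical
  show (if v ∈ S then (0 : v.adicCompletion K) else y.2 v) = 0
  rw [if_pos hv]

theorem rest569_of_notMem {S : Finset (HeightOneSpectrum (𝓞 K))} (y : A0.Adl K)
    {v : HeightOneSpectrum (𝓞 K)} (hv : v ∉ S) : (rest569 S y).2 v = y.2 v := by
  classical
  show (if v ∈ S then (0 : v.adicCompletion K) else y.2 v) = y.2 v
  rw [if_neg hv]

/-- **The decomposition of an adele** along a finite set of finite places. -/
theorem adl_decomp569 (S : Finset (HeightOneSpectrum (𝓞 K))) (y : A0.Adl K) :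
    y = (∑ u : InfinitePlace K, adlInf569 u (y.1 u))
      + ((∑ v ∈ S, adlFin569 v (y.2 v)) + rest569 S y) := by
  classical
  refine adl_ext793 (fun w => ?_) (fun v => ?_)
  · rw [map_add, map_add, map_sum, map_sum]
    simp only [projInf793_apply]
    have h1 : ∑ u : InfinitePlace K, (adlInf569 u (y.1 u)).1 w = y.1 w := by
      rw [Finset.sum_eq_single w]
      · exact adlInf569_apply w _
      · intro u _ hu
        exact adlInf569_of_ne (Ne.symm hu) _
      · intro h
        exact absurd (Finset.mem_univ w) h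
    have h2 : ∑ v ∈ S, (adlFin569 v (y.2 v)).1 w = 0 :=
      Finset.sum_eq_zero fun v _ => rfl
    rw [h1, h2, rest569_fst]
    simp only [zero_add]
    exact (add_zero _).symm
  · rw [map_add, map_add, map_sum, map_sum]
    simp only [projFin793_apply]
    have h1 : ∑ u : InfinitePlace K, (adlInf569 u (y.1 u)).2 v = 0 :=
      Finset.sum_eq_zero fun u _ => rfl
    rw [h1, zero_add]
    by_cases hv : v ∈ S
    · rw [rest569_of_mem y hv, add_zero, Finset.sum_eq_single v]
      · exact (adlFin569_apply v _).symm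
      · intro w _ hw
        exact finSingle569_of_ne (Ne.symm hw) _
      · intro h
        exact absurd hv h
    · rw [rest569_of_notMem y hv, Finset.sum_eq_zero, zero_add]
      intro w hw
      have hne : v ≠ w := fun h => hv (h ▸ hw)
      exact finSingle569_of_ne hne _

/-! ## Neighbourhoods of `0` in the adeles -/

/-- Every neighbourhood of `0` in the adeles contains the everywhere integral finite adeles which
vanish at a suitable finite set of places. -/
theorem exists_finite_nhds569 (U : Set (A0.Adl K)) (hU : U ∈ 𝓝 (0 : A0.Adl K)) :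
    ∃ I : Set (HeightOneSpectrum (𝓞 K)), I.Finite ∧ ∀ x : A0.Adl K, x.1 = 0 →
      (∀ v ∈ I, x.2 v = 0) → (∀ v, x.2 v ∈ v.adicCompletionIntegers K) → x ∈ U := by
  let A : ∀ v : HeightOneSpectrum (𝓞 K), Set (v.adicCompletion K) :=
    fun v => (v.adicCompletionIntegers K : Set (v.adicCompletion K))
  let s : (∀ v : HeightOneSpectrum (𝓞 K), A v) → FiniteAdeleRing (𝓞 K) K :=
    RestrictedProduct.structureMap (fun v : HeightOneSpectrum (𝓞 K) => v.adicCompletion K) A
      Filter.cofinite
  have hs : Continuous s :=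
    (RestrictedProduct.isEmbedding_structureMap
      (R := fun v : HeightOneSpectrum (𝓞 K) => v.adicCompletion K) (A := A)
      (𝓕 := Filter.cofinite)).continuous
  let j : (∀ v : HeightOneSpectrum (𝓞 K), A v) → A0.Adl K := fun z => (0, s z)
  have hj : Continuous j := continuous_const.prodMk hs
  let z0 : ∀ v : HeightOneSpectrum (𝓞 K), A v := fun v => ⟨0, zero_mem _⟩
  have hj0 : j z0 = 0 := by
    refine Prod.ext rfl ?_
    apply FiniteAdeleRing.ext (K := K)
    intro v
    rfl
  have hpre : j ⁻¹' U ∈ 𝓝 z0 := by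
    apply hj.continuousAt.preimage_mem_nhds
    rw [hj0]
    exact hU
  rw [nhds_pi, Filter.mem_pi] at hpre
  obtain ⟨I, hI, t, ht, hsub⟩ := hpre
  refine ⟨I, hI, fun x hx1 hx2 hx3 => ?_⟩
  let z : ∀ v : HeightOneSpectrum (𝓞 K), A v := fun v => ⟨x.2 v, hx3 v⟩
  have hz : z ∈ I.pi t := by
    intro v hv
    have h0 : z v = z0 v := Subtype.ext (hx2 v hv)
    rw [h0]
    exact mem_of_mem_nhds (ht v)
  have hjz : j z = x := by
    refine Prod.ext hx1.symm ?_
    apply FiniteAdeleRing.ext (K := K)
    intro v
    rfl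
  have := hsub hz
  rw [Set.mem_preimage, hjz] at this
  exact this

/-! ## Additive characters -/

theorem psi_zero569 {ψ : A0.Adl K → ℂ} (hadd : ∀ x y : A0.Adl K, ψ (x + y) = ψ x * ψ y)
    (hnorm : ∀ x : A0.Adl K, ‖ψ x‖ = 1) : ψ 0 = 1 := by
  have h := hadd 0 0
  rw [add_zero] at h
  have h0 : ψ 0 ≠ 0 := by
    intro h0
    have := hnorm 0
    rw [h0, norm_zero] at this
    exact zero_ne_one this
  have h2 : ψ 0 * 1 = ψ 0 * ψ 0 := by rw [mul_one]; exact h
  exact (mul_left_cancel₀ h0 h2).symm

theorem psi_sum569 {ψ : A0.Adl K → ℂ} (h0 : ψ 0 = 1)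
    (hadd : ∀ x y : A0.Adl K, ψ (x + y) = ψ x * ψ y) {ι : Type*} (s : Finset ι)
    (f : ι → A0.Adl K) : ψ (∑ i ∈ s, f i) = ∏ i ∈ s, ψ (f i) := by
  classical
  induction s using Finset.induction_on with
  | empty => simpa using h0
  | insert a s ha ih => rw [Finset.sum_insert ha, Finset.prod_insert ha, hadd, ih]

/-- **The tail**: a continuous character which is trivial on `𝒪_v` for `v ∉ S₀` is trivial on
the everywhere integral finite adeles vanishing on `S₀`. -/
theorem psi_tail569 {ψ : A0.Adl K → ℂ} (hc : Continuous ψ) (h0 : ψ 0 = 1)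
    (hadd : ∀ x y : A0.Adl K, ψ (x + y) = ψ x * ψ y)
    (S₀ : Set (HeightOneSpectrum (𝓞 K)))
    (hgood : ∀ v, v ∉ S₀ → ∀ x : A0.Adl K, WL.AdlAtFin v x →
      x.2 v ∈ v.adicCompletionIntegers K → ψ x = 1)
    (r : A0.Adl K) (hr1 : r.1 = 0) (hr2 : ∀ v ∈ S₀, r.2 v = 0)
    (hr3 : ∀ v, r.2 v ∈ v.adicCompletionIntegers K) : ψ r = 1 := by
  classical
  by_contra hne
  have hW : ({ψ r}ᶜ : Set ℂ) ∈ 𝓝 (ψ 0) := by
    apply isOpen_compl_singleton.mem_nhds
    rw [h0]
    exact fun h => hne h.symm
  have hU : ψ ⁻¹' ({ψ r}ᶜ : Set ℂ) ∈ 𝓝 (0 : A0.Adl K) := hc.continuousAt.preimage_mem_nhds hW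
  obtain ⟨I, hI, hsub⟩ := exists_finite_nhds569 _ hU
  set T : Finset (HeightOneSpectrum (𝓞 K)) := hI.toFinset with hT
  have hdec := adl_decomp569 T r
  have hinf : (∑ u : InfinitePlace K, adlInf569 u (r.1 u)) = 0 := by
    apply Finset.sum_eq_zero
    intro u _
    rw [hr1]
    refine adl_ext793 (fun w => ?_) (fun v => rfl)
    show (adlInf569 u ((0 : InfiniteAdeleRing K) u)).1 w = 0
    by_cases hw : w = u
    · subst hw
      rw [adlInf569_apply]
      rfl
    · exact adlInf569_of_ne hw _
  rw [hinf, zero_add] at hdec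
  have hfac : ∀ v ∈ T, ψ (adlFin569 v (r.2 v)) = 1 := by
    intro v _
    by_cases hv : v ∈ S₀
    · rw [hr2 v hv, adlFin569_zero, h0]
    · apply hgood v hv _ (adlFin569_atFin v _)
      rw [adlFin569_apply]
      exact hr3 v
  have hψ : ψ r = ψ (rest569 T r) := by
    conv_lhs => rw [hdec]
    rw [hadd, psi_sum569 h0 hadd, Finset.prod_eq_one hfac, one_mul]
  have hmem : rest569 T r ∈ ψ ⁻¹' ({ψ r}ᶜ : Set ℂ) := by
    apply hsub _ (rest569_fst T r)
    · intro v hv
      exact rest569_of_mem r (hI.mem_toFinset.2 hv)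
    · intro v
      by_cases hv : v ∈ T
      · rw [rest569_of_mem r hv]
        exact zero_mem _
      · rw [rest569_of_notMem r hv]
        exact hr3 v
  exact hmem hψ.symm

/-! ## The product formula for `ψ` -/

theorem psifin_eq569 (L : WData K) (hL : L.IsGood) (v : HeightOneSpectrum (𝓞 K))
    (x : v.adicCompletion K) : L.ψfin v x = L.ψ (adlFin569 v x) := by
  rw [(hL.fin v).psi _ (adlFin569_atFin v x), adlFin569_apply]

theorem psiinf_eq569 (L : WData K) (hL : L.IsGood) (u : InfinitePlace K)
    (x : u.Completion) : L.ψinf u x = L.ψ (adlInf569 u x) := by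
  rw [(hL.cpx u).psi _ (adlInf569_atInf u x), adlInf569_apply]

theorem psifin_eq_one569 (L : WData K) (hL : L.IsGood) (v : HeightOneSpectrum (𝓞 K))
    (hv : ¬ v.asIdeal ∣ L.π.level) (x : v.adicCompletion K)
    (hx : x ∈ v.adicCompletionIntegers K) : L.ψfin v x = 1 := by
  rw [psifin_eq569 L hL]
  apply (hL.good v hv).good_psi.1 _ (adlFin569_atFin v x)
  rw [adlFin569_apply]
  exact hx

theorem eventually_psifin_eq_one569 (L : WData K) (hL : L.IsGood) (y : A0.Adl K) :
    ∀ᶠ v : HeightOneSpectrum (𝓞 K) in Filter.cofinite, L.ψfin v (y.2 v) = 1 := by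
  filter_upwards [eventually_good569 L.π, eventually_integral_adl569 y] with v hv hy
  exact psifin_eq_one569 L hL v hv _ hy

theorem hasFiniteMulSupport_psifin569 (L : WData K) (hL : L.IsGood) (y : A0.Adl K) :
    Function.HasFiniteMulSupport fun v : HeightOneSpectrum (𝓞 K) => L.ψfin v (y.2 v) := by
  have := eventually_psifin_eq_one569 L hL y
  rw [Filter.eventually_cofinite] at this
  exact this

/-- **`ψ = ∏ ψ_v`.** -/
theorem psi_prod569 (L : WData K) (hL : L.IsGood) (y : A0.Adl K) :
    L.ψ y = (∏ u : InfinitePlace K, L.ψinf u (y.1 u))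
      * ∏ᶠ v : HeightOneSpectrum (𝓞 K), L.ψfin v (y.2 v) := by
  classical
  have hadd := hL.char.map_add
  have h0 : L.ψ 0 = 1 := psi_zero569 hadd hL.char.norm_one
  -- the finite set of the bad places for `y`
  have hbad : {v : HeightOneSpectrum (𝓞 K) | v.asIdeal ∣ L.π.level}.Finite :=
    Ideal.finite_factors L.π.level_ne_bot
  have hint : {v : HeightOneSpectrum (𝓞 K) | ¬ y.2 v ∈ v.adicCompletionIntegers K}.Finite := by
    have := eventually_integral_adl569 y
    rwa [Filter.eventually_cofinite] at this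
  set S : Finset (HeightOneSpectrum (𝓞 K)) := (hbad.union hint).toFinset with hS
  have hSmem : ∀ v, v ∉ S → ¬ v.asIdeal ∣ L.π.level ∧ y.2 v ∈ v.adicCompletionIntegers K := by
    intro v hv
    rw [hS, Set.Finite.mem_toFinset, Set.mem_union, not_or] at hv
    exact ⟨hv.1, not_not.1 hv.2⟩
  -- the finite product
  have hfin : ∏ᶠ v : HeightOneSpectrum (𝓞 K), L.ψfin v (y.2 v) = ∏ v ∈ S, L.ψfin v (y.2 v) := by
    apply finprod_eq_prod_of_mulSupport_subset
    intro v hv
    rw [Function.mem_mulSupport] at hv
    by_contra hvS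
    have hvS' : v ∉ S := hvS
    exact hv (psifin_eq_one569 L hL v (hSmem v hvS').1 _ (hSmem v hvS').2)
  -- the tail
  have htail : L.ψ (rest569 S y) = 1 := by
    apply psi_tail569 hL.char.cont h0 hadd {v | v.asIdeal ∣ L.π.level}
    · intro v hv x hx hxi
      exact (hL.good v hv).good_psi.1 x hx hxi
    · exact rest569_fst S y
    · intro v hv
      apply rest569_of_mem
      rw [hS, Set.Finite.mem_toFinset]
      exact Or.inl hv
    · intro v
      by_cases hv : v ∈ S
      · rw [rest569_of_mem y hv]
        exact zero_mem _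
      · rw [rest569_of_notMem y hv]
        exact (hSmem v hv).2
  conv_lhs => rw [adl_decomp569 S y]
  rw [hadd, hadd, psi_sum569 h0 hadd, psi_sum569 h0 hadd, htail, mul_one, hfin]
  congr 1
  · exact Finset.prod_congr rfl fun u _ => (psiinf_eq569 L hL u _).symm
  · exact Finset.prod_congr rfl fun v _ => (psifin_eq569 L hL v _).symm

end Fermat.Agent.LT.A2.H569
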